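import Fermat.Agent.S59.MFree.Spec

/-!
# Row S59, block M-FREE, leaf (D): `EisensteinStatement` (helper361)

`T_l = l + 1` on the additive characters of `Γ₀(M)` which are trivial on `Γ₁(M)`.

Proof.  `dLow g := (g 1 1 mod M)` is multiplicative on `Γ₀(M)` (lower left entries vanish mod `M`).
The Hecke representatives `α_x = heckeRep l x` are upper triangular with lower right entry
`low x ∈ {1, l}`.  Reading the `(1,1)` entry of `α_x γ = γ_x α_{σ x}` modulo `M` gives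
`low x * dLow γ = dLow γ_x * low (σ x)`.  With `δ_x ∈ Γ₀(M)`, `dLow δ_x = low x`
(`δ_∞ = 1`, `δ_j = δ`), `dLow (δ_x γ) = dLow (γ_x δ_{σ x})`, hence
`φ δ_x + φ γ = φ γ_x + φ δ_{σ x}`; summing over `x` (`σ` is a permutation) gives the claim.
-/

set_option autoImplicit false

namespace Fermat.Agent.S59.MFree.H361

open CongruenceSubgroup Matrix.SpecialLinearGroup
open Fermat.Agent.S41.Spec Fermat.Agent.S29.H642
open P2MW.S_ModularForm_heckeT_slash_eq_self_of_mem_Gamma0.ModularForm.HeckeSlashInvariance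
open ModularForm
open scoped MatrixGroups

universe u

variable {M l : ℕ}

/-- the lower right entry modulo `M` -/
def dLow (M : ℕ) (g : SL(2, ℤ)) : ZMod M := (((g 1 1 : ℤ)) : ZMod M)

theorem lowLeft_eq_zero (g : Gamma0 M) : ((((g : SL(2, ℤ)) 1 0 : ℤ)) : ZMod M) = 0 :=
  Gamma0_mem.mp g.2

theorem dLow_one : dLow M (1 : SL(2, ℤ)) = 1 := by
  simp [dLow]

theorem dLow_mul (g h : Gamma0 M) :
    dLow M ((g * h : Gamma0 M) : SL(2, ℤ)) = dLow M g * dLow M h := by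
  have h0 := lowLeft_eq_zero g
  have hmul : (((g : SL(2, ℤ)) * (h : SL(2, ℤ))) 1 1 : ℤ) =
      (g : SL(2, ℤ)) 1 0 * (h : SL(2, ℤ)) 0 1 + (g : SL(2, ℤ)) 1 1 * (h : SL(2, ℤ)) 1 1 := by
    rw [Matrix.SpecialLinearGroup.coe_mul, Matrix.mul_apply, Fin.sum_univ_two]
  simp only [dLow, Subgroup.coe_mul, hmul]
  push_cast
  rw [h0, zero_mul, zero_add]

theorem dLow_mul_inv (g : Gamma0 M) :
    dLow M (g : SL(2, ℤ)) * dLow M ((g⁻¹ : Gamma0 M) : SL(2, ℤ)) = 1 := by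
  rw [← dLow_mul, mul_inv_cancel]
  exact dLow_one

/-- characters trivial on `Γ₁(M)` only depend on the lower right entry modulo `M` -/
theorem phi_eq_of_dLow_eq {B : Type u} [AddCommGroup B] (φ : Additive (Gamma0 M) →+ B)
    (hφ : ∀ γ : Gamma0 M, ((((γ : SL(2, ℤ)) 1 1 : ℤ)) : ZMod M) = 1 → φ (Additive.ofMul γ) = 0)
    (g h : Gamma0 M) (hgh : dLow M (g : SL(2, ℤ)) = dLow M (h : SL(2, ℤ))) :
    φ (Additive.ofMul g) = φ (Additive.ofMul h) := by
  have h1 : dLow M ((g * h⁻¹ : Gamma0 M) : SL(2, ℤ)) = 1 := by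
    rw [dLow_mul, hgh, dLow_mul_inv]
  have h2 : φ (Additive.ofMul (g * h⁻¹)) = 0 := hφ _ h1
  have h3 : φ (Additive.ofMul (g * h⁻¹)) = φ (Additive.ofMul g) - φ (Additive.ofMul h) := by
    rw [ofMul_mul, map_add, ofMul_inv, map_neg, sub_eq_add_neg]
  rw [h3, sub_eq_zero] at h2
  exact h2

/-- the lower right entry of the Hecke representative `α_x` -/
def low (l : ℕ) (x : OnePoint (ZMod l)) : ℤ := x.elim 1 (fun _ => (l : ℤ))

/-- the upper right entry of the Hecke representative `α_x` -/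
def upR (l : ℕ) (x : OnePoint (ZMod l)) : ℤ := x.elim 0 (fun j => (j.val : ℤ))

theorem heckeRep_one_zero (hl0 : l ≠ 0) (x : OnePoint (ZMod l)) :
    ((heckeRep l x : GL (Fin 2) ℝ) : Matrix (Fin 2) (Fin 2) ℝ) 1 0 = 0 := by
  induction x using OnePoint.rec with
  | infty => rw [heckeRep_infty, val_heckeDiagMatrix hl0]; simp
  | coe j => rw [heckeRep_coe, val_heckeMatrix hl0]; simp

theorem heckeRep_one_one (hl0 : l ≠ 0) (x : OnePoint (ZMod l)) :
    ((heckeRep l x : GL (Fin 2) ℝ) : Matrix (Fin 2) (Fin 2) ℝ) 1 1 = (low l x : ℝ) := by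
  induction x using OnePoint.rec with
  | infty => rw [heckeRep_infty, val_heckeDiagMatrix hl0]; simp [low]
  | coe j => rw [heckeRep_coe, val_heckeMatrix hl0]; simp [low]

theorem heckeRep_zero_one (hl0 : l ≠ 0) (x : OnePoint (ZMod l)) :
    ((heckeRep l x : GL (Fin 2) ℝ) : Matrix (Fin 2) (Fin 2) ℝ) 0 1 = (upR l x : ℝ) := by
  induction x using OnePoint.rec with
  | infty => rw [heckeRep_infty, val_heckeDiagMatrix hl0]; simp [upR]
  | coe j => rw [heckeRep_coe, val_heckeMatrix hl0]; simp [upR]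

theorem mapGL_apply (g : SL(2, ℤ)) (i j : Fin 2) :
    ((mapGL ℝ g : GL (Fin 2) ℝ) : Matrix (Fin 2) (Fin 2) ℝ) i j = ((g i j : ℤ) : ℝ) := by
  simp

variable [Fact l.Prime]

/-- the key congruence: `low x * d(γ) = d(γ_x) * low (σ x)` modulo `M` -/
theorem low_mul_dLow (hl : ¬ l ∣ M) (γ : Gamma0 M) (x : OnePoint (ZMod l)) :
    ((low l x : ℤ) : ZMod M) * dLow M (γ : SL(2, ℤ)) =
      dLow M ((hElt hl γ x : Gamma0 M) : SL(2, ℤ)) *
        ((low l (hPerm l (γ : SL(2, ℤ)) x) : ℤ) : ZMod M) := by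
  have hl0 : l ≠ 0 := (Fact.out : l.Prime).ne_zero
  have hspec := hElt_spec hl γ x
  have h11 := congrArg (fun A : GL (Fin 2) ℝ => (A : Matrix (Fin 2) (Fin 2) ℝ) 1 1) hspec
  simp only [Matrix.GeneralLinearGroup.coe_mul, Matrix.mul_apply, Fin.sum_univ_two,
    heckeRep_one_zero hl0, heckeRep_one_one hl0, heckeRep_zero_one hl0, mapGL_apply,
    zero_mul, zero_add] at h11
  have hint : (low l x : ℤ) * (γ : SL(2, ℤ)) 1 1 =
      ((hElt hl γ x : Gamma0 M) : SL(2, ℤ)) 1 0 * upR l (hPerm l (γ : SL(2, ℤ)) x) +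
        ((hElt hl γ x : Gamma0 M) : SL(2, ℤ)) 1 1 * low l (hPerm l (γ : SL(2, ℤ)) x) := by
    exact_mod_cast h11
  have hz := lowLeft_eq_zero (hElt hl γ x)
  have hc := congrArg (Int.cast : ℤ → ZMod M) hint
  push_cast at hc
  rw [hz, zero_mul, zero_add] at hc
  exact hc

/-- an element of `Γ₀(M)` with lower right entry `l` -/
theorem exists_dLow_eq (hl : ¬ l ∣ M) : ∃ δ : Gamma0 M, dLow M (δ : SL(2, ℤ)) = ((l : ℤ) : ZMod M) := by
  have hcop : Nat.Coprime l M := (Nat.Prime.coprime_iff_not_dvd Fact.out).mpr hl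
  have hgcd : ((Nat.gcd l M : ℕ) : ℤ) = (l : ℤ) * Nat.gcdA l M + (M : ℤ) * Nat.gcdB l M :=
    Nat.gcd_eq_gcd_ab l M
  rw [hcop] at hgcd
  have hdet : (!![Nat.gcdA l M, -Nat.gcdB l M; (M : ℤ), (l : ℤ)] : Matrix (Fin 2) (Fin 2) ℤ).det = 1 := by
    rw [Matrix.det_fin_two_of]
    push_cast at hgcd
    linarith
  let δ0 : SL(2, ℤ) := ⟨!![Nat.gcdA l M, -Nat.gcdB l M; (M : ℤ), (l : ℤ)], hdet⟩
  have hmem : δ0 ∈ Gamma0 M := by
    rw [Gamma0_mem]
    show (((!![Nat.gcdA l M, -Nat.gcdB l M; (M : ℤ), (l : ℤ)] : Matrix (Fin 2) (Fin 2) ℤ) 1 0 : ℤ) :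
      ZMod M) = 0
    simp
  refine ⟨⟨δ0, hmem⟩, ?_⟩
  show (((!![Nat.gcdA l M, -Nat.gcdB l M; (M : ℤ), (l : ℤ)] : Matrix (Fin 2) (Fin 2) ℤ) 1 1 : ℤ) :
      ZMod M) = _
  simp

/-- **Leaf (D) of M-FREE.** -/
theorem eisenstein : EisensteinStatement.{u} := by
  intro M l _ hl _hM B _ φ hφ
  obtain ⟨δ, hδ⟩ := exists_dLow_eq (M := M) (l := l) hl
  -- the elements `δ_x`
  let dl : OnePoint (ZMod l) → Gamma0 M := fun x => x.elim 1 (fun _ => δ)
  have hdl : ∀ x : OnePoint (ZMod l), dLow M ((dl x : Gamma0 M) : SL(2, ℤ)) = ((low l x : ℤ) : ZMod M) := by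
    intro x
    induction x using OnePoint.rec with
    | infty =>
      show dLow M (((1 : Gamma0 M) : Gamma0 M) : SL(2, ℤ)) = ((low l (OnePoint.infty) : ℤ) : ZMod M)
      rw [Subgroup.coe_one, dLow_one]
      simp [low]
    | coe j =>
      show dLow M ((δ : Gamma0 M) : SL(2, ℤ)) = ((low l ((j : ZMod l) : OnePoint (ZMod l)) : ℤ) : ZMod M)
      rw [hδ]
      simp [low]
  let T : OnePoint (ZMod l) → B := fun x => φ (Additive.ofMul (dl x))
  refine AddMonoidHom.ext fun γa => ?_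
  obtain ⟨γ, rfl⟩ : ∃ γ : Gamma0 M, Additive.ofMul γ = γa := ⟨Additive.toMul γa, rfl⟩
  rw [heckeTransfer_apply, AddMonoidHom.smul_apply]
  -- the pointwise relation
  have hrel : ∀ x : OnePoint (ZMod l),
      T x + φ (Additive.ofMul γ) =
        φ (Additive.ofMul (hElt hl γ x)) + T (hPerm l (γ : SL(2, ℤ)) x) := by
    intro x
    have h1 : dLow M (((dl x * γ : Gamma0 M)) : SL(2, ℤ)) =
        dLow M (((hElt hl γ x * dl (hPerm l (γ : SL(2, ℤ)) x) : Gamma0 M)) : SL(2, ℤ)) := by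
      rw [dLow_mul, dLow_mul, hdl, hdl]
      exact low_mul_dLow hl γ x
    have h2 := phi_eq_of_dLow_eq φ hφ _ _ h1
    rw [ofMul_mul, map_add, ofMul_mul, map_add] at h2
    exact h2
  have hsum := Finset.sum_congr (rfl : (Finset.univ : Finset (OnePoint (ZMod l))) = Finset.univ)
    (fun x _ => hrel x)
  rw [Finset.sum_add_distrib, Finset.sum_add_distrib, Finset.sum_const, Finset.card_univ] at hsum
  have hperm : ∑ x : OnePoint (ZMod l), T (hPerm l (γ : SL(2, ℤ)) x) = ∑ x : OnePoint (ZMod l), T x :=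
    Equiv.sum_comp (hPerm l (γ : SL(2, ℤ))) T
  rw [hperm] at hsum
  have hcard : Fintype.card (OnePoint (ZMod l)) = l + 1 := by
    have : Fintype.card (Option (ZMod l)) = l + 1 := by
      rw [Fintype.card_option, ZMod.card]
    exact this
  rw [hcard] at hsum
  -- cancel `∑ T`
  have := add_left_cancel (a := ∑ x : OnePoint (ZMod l), T x)
    (b := (l + 1) • φ (Additive.ofMul γ))
    (c := ∑ x : OnePoint (ZMod l), φ (Additive.ofMul (hElt hl γ x)))
    (by rw [hsum, add_comm])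
  exact this.symm

end Fermat.Agent.S59.MFree.H361
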